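import Mathlib

/-!
# Rearranging a Dirichlet-type sum over a counting function

For `N : ι → ℕ` with finite fibres and `N i ≠ 0`, the sum `∑' i, (N i)^(-s)` equals
`∑' n, cnt (n+1) * (n+1)^(-s)` with `cnt n = #{i | N i = n}`, and the partial sums of `cnt` count
`{i | N i ≤ n}`.
-/

set_option autoImplicit false

namespace Fermat.Agent.S14_helper57

section fiber

variable {ι : Type*} (N : ι → ℕ)

/-- The number of indices of "norm" `n`. -/
noncomputable def cnt (n : ℕ) : ℝ := (({i | N i = n} : Set ι).ncard : ℝ)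

theorem cnt_nonneg (n : ℕ) : 0 ≤ cnt N n := Nat.cast_nonneg _

theorem cnt_zero (hpos : ∀ i, N i ≠ 0) : cnt N 0 = 0 := by
  unfold cnt
  have : ({i | N i = 0} : Set ι) = ∅ := by
    ext i
    simp [hpos i]
  rw [this, Set.ncard_empty, Nat.cast_zero]

theorem finite_le (hfin : ∀ n, ({i | N i = n} : Set ι).Finite) (n : ℕ) :
    ({i | N i ≤ n} : Set ι).Finite := by
  induction n with
  | zero =>
    have : ({i | N i ≤ 0} : Set ι) = {i | N i = 0} := by
      ext i
      simp
    rw [this]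
    exact hfin 0
  | succ n ih =>
    have : ({i | N i ≤ n + 1} : Set ι) = {i | N i ≤ n} ∪ {i | N i = n + 1} := by
      ext i
      simp only [Set.mem_ofPred_eq, Set.mem_union]
      omega
    rw [this]
    exact ih.union (hfin _)

/-- The partial sums of `cnt` count the indices of norm at most `n`. -/
theorem sum_range_cnt (hfin : ∀ n, ({i | N i = n} : Set ι).Finite) (hpos : ∀ i, N i ≠ 0)
    (n : ℕ) :
    ∑ k ∈ Finset.range n, cnt N (k + 1) = (({i | N i ≤ n} : Set ι).ncard : ℝ) := by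
  induction n with
  | zero =>
    have : ({i | N i ≤ 0} : Set ι) = ∅ := by
      ext i
      simp [hpos i]
    rw [this]
    simp
  | succ n ih =>
    have hunion : ({i | N i ≤ n + 1} : Set ι) = {i | N i ≤ n} ∪ {i | N i = n + 1} := by
      ext i
      simp only [Set.mem_ofPred_eq, Set.mem_union]
      omega
    have hdisj : Disjoint ({i | N i ≤ n} : Set ι) {i | N i = n + 1} := by
      rw [Set.disjoint_left]
      intro i h1 h2
      simp only [Set.mem_ofPred_eq] at h1 h2
      omega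
    rw [Finset.sum_range_succ, ih, hunion,
      Set.ncard_union_eq hdisj (finite_le N hfin n) (hfin _), Nat.cast_add]
    rfl

variable (s : ℝ)

theorem comp_sigmaFiberEquiv (p : (n : ℕ) × {i // N i = n}) :
    (N (Equiv.sigmaFiberEquiv N p) : ℝ) ^ (-s) = (p.1 : ℝ) ^ (-s) := by
  obtain ⟨n, i, hi⟩ := p
  simp [Equiv.sigmaFiberEquiv, hi]

theorem tsum_fiber (n : ℕ) :
    ∑' i : {i // N i = n}, (N (Equiv.sigmaFiberEquiv N ⟨n, i⟩) : ℝ) ^ (-s) =
      cnt N n * (n : ℝ) ^ (-s) := by
  simp only [comp_sigmaFiberEquiv]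
  rw [tsum_const, nsmul_eq_mul]
  congr 2

theorem summable_fiber (hfin : ∀ n, ({i | N i = n} : Set ι).Finite) (n : ℕ) :
    Summable fun i : {i // N i = n} => (N (Equiv.sigmaFiberEquiv N ⟨n, i⟩) : ℝ) ^ (-s) := by
  have : Finite {i // N i = n} := (hfin n).to_subtype
  exact Summable.of_finite

theorem summable_sigma_iff (hfin : ∀ n, ({i | N i = n} : Set ι).Finite) :
    Summable (fun i => (N i : ℝ) ^ (-s)) ↔ Summable fun n : ℕ => cnt N n * (n : ℝ) ^ (-s) := by
  rw [← (Equiv.sigmaFiberEquiv N).summable_iff, summable_sigma_of_nonneg]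
  · constructor
    · rintro ⟨_, h⟩
      refine h.congr fun n => ?_
      exact tsum_fiber N s n
    · intro h
      refine ⟨fun n => summable_fiber N s hfin n, h.congr fun n => ?_⟩
      exact (tsum_fiber N s n).symm
  · intro p
    exact Real.rpow_nonneg (Nat.cast_nonneg _) _

theorem summable_iff (hfin : ∀ n, ({i | N i = n} : Set ι).Finite) :
    Summable (fun i => (N i : ℝ) ^ (-s)) ↔
      Summable fun n : ℕ => cnt N (n + 1) * ((n : ℝ) + 1) ^ (-s) := by
  rw [summable_sigma_iff N s hfin,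
    ← summable_nat_add_iff (f := fun n : ℕ => cnt N n * (n : ℝ) ^ (-s)) 1]
  simp only [Nat.cast_add, Nat.cast_one]

theorem tsum_eq (hfin : ∀ n, ({i | N i = n} : Set ι).Finite) (hpos : ∀ i, N i ≠ 0) :
    ∑' i, (N i : ℝ) ^ (-s) = ∑' n : ℕ, cnt N (n + 1) * ((n : ℝ) + 1) ^ (-s) := by
  by_cases hsum : Summable (fun i => (N i : ℝ) ^ (-s))
  · have h1 := (summable_sigma_iff N s hfin).mp hsum
    have h2 : Summable ((fun i => (N i : ℝ) ^ (-s)) ∘ Equiv.sigmaFiberEquiv N) :=
      (Equiv.sigmaFiberEquiv N).summable_iff.mpr hsum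
    calc ∑' i, (N i : ℝ) ^ (-s)
        = ∑' p, (N (Equiv.sigmaFiberEquiv N p) : ℝ) ^ (-s) :=
          ((Equiv.sigmaFiberEquiv N).tsum_eq fun i => (N i : ℝ) ^ (-s)).symm
      _ = ∑' n : ℕ, ∑' i : {i // N i = n}, (N (Equiv.sigmaFiberEquiv N ⟨n, i⟩) : ℝ) ^ (-s) :=
          Summable.tsum_sigma' (summable_fiber N s hfin) h2
      _ = ∑' n : ℕ, cnt N n * (n : ℝ) ^ (-s) := tsum_congr (tsum_fiber N s)
      _ = ∑' n : ℕ, cnt N (n + 1) * ((n : ℝ) + 1) ^ (-s) := by
          rw [h1.tsum_eq_zero_add, cnt_zero N hpos, zero_mul, zero_add]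
          simp only [Nat.cast_add, Nat.cast_one]
  · rw [tsum_eq_zero_of_not_summable hsum, tsum_eq_zero_of_not_summable]
    rwa [← summable_iff N s hfin]

end fiber

end Fermat.Agent.S14_helper57
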