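import Mathlib

/-!
# Elementary two-sided bound for `∑ (n+1)^(-s)`, `s > 1`

`1/(s-1) ≤ ∑' n, (n+1)^(-s) ≤ 1 + 1/(s-1)`, by comparison with `∫ x^(-s)`.
-/

set_option autoImplicit false

open Filter Topology

namespace Fermat.Agent.S14_helper57

theorem zterm_nonneg (s : ℝ) (n : ℕ) : 0 ≤ ((n : ℝ) + 1) ^ (-s) :=
  Real.rpow_nonneg (by positivity) _

theorem summable_zterm {s : ℝ} (hs : 1 < s) : Summable fun n : ℕ => ((n : ℝ) + 1) ^ (-s) := by
  have h1 : Summable fun n : ℕ => (n : ℝ) ^ (-s) := Real.summable_nat_rpow.mpr (by linarith)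
  have h2 := (summable_nat_add_iff (f := fun n : ℕ => (n : ℝ) ^ (-s)) 1).mpr h1
  simpa only [Nat.cast_add, Nat.cast_one] using h2

theorem antitoneOn_rpow_neg {s : ℝ} (hs : 0 ≤ s) (b : ℝ) :
    AntitoneOn (fun x : ℝ => x ^ (-s)) (Set.Icc 1 b) := by
  intro x hx y _ hxy
  exact Real.rpow_le_rpow_of_nonpos (by linarith [hx.1]) hxy (by linarith)

theorem integral_rpow_neg {s : ℝ} (hs : 1 < s) (m : ℕ) :
    ∫ x in (1 : ℝ)..1 + (m : ℝ), x ^ (-s) = (1 - (1 + (m : ℝ)) ^ (1 - s)) / (s - 1) := by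
  have hm : (0 : ℝ) ≤ m := Nat.cast_nonneg _
  rw [integral_rpow]
  · rw [Real.one_rpow, show -s + 1 = 1 - s by ring]
    have h1 : (1 - s) ≠ 0 := by linarith
    have h2 : (s - 1) ≠ 0 := by linarith
    field_simp
    ring
  · right
    refine ⟨by linarith, ?_⟩
    rw [Set.uIcc_of_le (by linarith), Set.mem_Icc]
    intro h
    linarith [h.1]

theorem sum_range_zterm_le {s : ℝ} (hs : 1 < s) (n : ℕ) :
    ∑ i ∈ Finset.range n, ((i : ℝ) + 1) ^ (-s) ≤ 1 + 1 / (s - 1) := by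
  have hs1 : 0 < s - 1 := by linarith
  rcases n with _ | m
  · simp only [Finset.range_zero, Finset.sum_empty]
    positivity
  · rw [Finset.sum_range_succ']
    have h1 := (antitoneOn_rpow_neg (by linarith : (0 : ℝ) ≤ s) (1 + (m : ℝ))).sum_le_integral
    rw [integral_rpow_neg hs m] at h1
    have h2 : ∑ i ∈ Finset.range m, (((i + 1 : ℕ) : ℝ) + 1) ^ (-s) ≤ 1 / (s - 1) := by
      have h3 : ∀ i ∈ Finset.range m, (((i + 1 : ℕ) : ℝ) + 1) ^ (-s) =
          (fun x : ℝ => x ^ (-s)) (1 + ((i + 1 : ℕ) : ℝ)) := by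
        intro i _
        simp only
        rw [add_comm]
      rw [Finset.sum_congr rfl h3]
      refine h1.trans ?_
      rw [div_le_div_iff_of_pos_right hs1]
      have : 0 ≤ (1 + (m : ℝ)) ^ (1 - s) := Real.rpow_nonneg (by positivity) _
      linarith
    have h4 : (((0 : ℕ) : ℝ) + 1) ^ (-s) = 1 := by simp
    rw [h4]
    linarith

theorem tsum_zterm_le {s : ℝ} (hs : 1 < s) :
    ∑' n : ℕ, ((n : ℝ) + 1) ^ (-s) ≤ 1 + 1 / (s - 1) :=
  Real.tsum_le_of_sum_range_le (zterm_nonneg s) (sum_range_zterm_le hs)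

theorem le_tsum_zterm {s : ℝ} (hs : 1 < s) :
    1 / (s - 1) ≤ ∑' n : ℕ, ((n : ℝ) + 1) ^ (-s) := by
  have hs1 : 0 < s - 1 := by linarith
  have hbound : ∀ n : ℕ, (1 - (1 + (n : ℝ)) ^ (1 - s)) / (s - 1) ≤
      ∑' n : ℕ, ((n : ℝ) + 1) ^ (-s) := by
    intro n
    have h1 := (antitoneOn_rpow_neg (by linarith : (0 : ℝ) ≤ s) (1 + (n : ℝ))).integral_le_sum
    rw [integral_rpow_neg hs n] at h1
    refine h1.trans ?_
    have h2 : ∀ i ∈ Finset.range n, (fun x : ℝ => x ^ (-s)) (1 + (i : ℝ)) =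
        ((i : ℝ) + 1) ^ (-s) := by
      intro i _
      simp only
      rw [add_comm]
    rw [Finset.sum_congr rfl h2]
    exact (summable_zterm hs).sum_le_tsum _ fun i _ => zterm_nonneg s i
  have htend : Tendsto (fun n : ℕ => (1 - (1 + (n : ℝ)) ^ (1 - s)) / (s - 1)) atTop
      (𝓝 ((1 - 0) / (s - 1))) := by
    refine Tendsto.div_const (Tendsto.const_sub 1 ?_) _
    have h3 : Tendsto (fun n : ℕ => 1 + (n : ℝ)) atTop atTop :=
      tendsto_atTop_add_const_left _ _ tendsto_natCast_atTop_atTop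
    have h4 := (tendsto_rpow_neg_atTop hs1).comp h3
    refine h4.congr fun n => ?_
    simp only [Function.comp_apply, neg_sub]
  rw [sub_zero] at htend
  exact le_of_tendsto' htend hbound

end Fermat.Agent.S14_helper57
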