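import Fermat.Agent.S14.SIan.IdealCount
import Fermat.Agent.S14.SIan.AbelBound
import Fermat.Agent.S14_helper57.FiberSum
import Fermat.Agent.S14_helper57.ZetaSum

/-!
# Partial zeta functions of ideal classes: the comparison with `κ ∑ n^(-s)`
-/

set_option autoImplicit false

open NumberField nonZeroDivisors

namespace Fermat.Agent.S14_helper57

variable (K : Type*) [Field K] [NumberField K]

/-- The nonzero integral ideals in the class `c`. -/
abbrev ClassIdx (c : ClassGroup (𝓞 K)) : Type _ :=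
  {I : (Ideal (𝓞 K))⁰ // ClassGroup.mk0 I = c}

/-- The absolute norm on the ideals of a class. -/
noncomputable def nrm (c : ClassGroup (𝓞 K)) : ClassIdx K c → ℕ :=
  fun I => Ideal.absNorm (I.1 : Ideal (𝓞 K))

theorem nrm_ne_zero (c : ClassGroup (𝓞 K)) (I : ClassIdx K c) : nrm K c I ≠ 0 := by
  unfold nrm
  rw [Ne, Ideal.absNorm_eq_zero_iff]
  exact mem_nonZeroDivisors_iff_ne_zero.mp I.1.2

theorem one_le_nrm (c : ClassGroup (𝓞 K)) (I : ClassIdx K c) : (1 : ℝ) ≤ nrm K c I := by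
  exact_mod_cast Nat.one_le_iff_ne_zero.mpr (nrm_ne_zero K c I)

theorem finite_nrm_eq (c : ClassGroup (𝓞 K)) (n : ℕ) :
    ({I : ClassIdx K c | nrm K c I = n} : Set (ClassIdx K c)).Finite := by
  have h := Ideal.finite_setOfPred_absNorm_eq (S := 𝓞 K) n
  have h2 := Set.Finite.preimage (f := fun I : ClassIdx K c => (I.1 : Ideal (𝓞 K)))
    (fun I _ J _ hIJ => Subtype.ext (Subtype.ext hIJ)) h
  exact h2

theorem ncard_nrm_le (c : ClassGroup (𝓞 K)) (n : ℕ) :
    ((({I : ClassIdx K c | nrm K c I ≤ n} : Set (ClassIdx K c)).ncard : ℕ) : ℝ) =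
      (Nat.card {I : (Ideal (𝓞 K))⁰ // (Ideal.absNorm (I : Ideal (𝓞 K)) : ℝ) ≤ (n : ℝ) ∧
        ClassGroup.mk0 I = c} : ℝ) := by
  rw [← Nat.card_coe_set_eq]
  congr 1
  refine Nat.card_congr
    { toFun := fun I => ⟨I.1.1, by
        have h := I.2
        simp only [Set.mem_ofPred_eq, nrm] at h
        exact ⟨by exact_mod_cast h, I.1.2⟩⟩
      invFun := fun I => ⟨⟨I.1, I.2.2⟩, by
        simp only [Set.mem_ofPred_eq, nrm]
        exact_mod_cast I.2.1⟩
      left_inv := fun I => rfl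
      right_inv := fun I => rfl }

/-- The comparison of the partial zeta function of a class with `κ ∑ (n+1)^(-s)`. -/
theorem exists_classZeta_bound :
    ∃ κ B : ℝ, 0 < κ ∧ 0 ≤ B ∧ ∀ (c : ClassGroup (𝓞 K)) (s : ℝ), 1 < s → s ≤ 2 →
      Summable (fun I : ClassIdx K c => (nrm K c I : ℝ) ^ (-s)) ∧
      |∑' I : ClassIdx K c, (nrm K c I : ℝ) ^ (-s) - κ * ∑' n : ℕ, ((n : ℝ) + 1) ^ (-s)| ≤ B := by
  obtain ⟨κ, C, hκ, hC⟩ := Fermat.Agent.S14.SIan.exists_card_norm_le_sub_le K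
  have hd : 0 < Module.finrank ℚ K := Module.finrank_pos
  have hdR : (1 : ℝ) ≤ (Module.finrank ℚ K : ℝ) := by exact_mod_cast hd
  set δ : ℝ := 1 / (Module.finrank ℚ K : ℝ) with hδ
  have hδ0 : 0 < δ := by positivity
  have hδ1 : δ ≤ 1 := by
    rw [hδ, div_le_one (by linarith)]
    exact hdR
  -- the hypothesis of `abel_bound` for each class
  have hab : ∀ (c : ClassGroup (𝓞 K)) (n : ℕ),
      |∑ k ∈ Finset.range n, cnt (nrm K c) (k + 1) - κ * n| ≤ |C| * (n : ℝ) ^ (1 - δ) := by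
    intro c n
    rw [sum_range_cnt (nrm K c) (finite_nrm_eq K c) (nrm_ne_zero K c) n, ncard_nrm_le]
    rcases Nat.eq_zero_or_pos n with hn | hn
    · subst hn
      have hempty : IsEmpty {I : (Ideal (𝓞 K))⁰ //
          (Ideal.absNorm (I : Ideal (𝓞 K)) : ℝ) ≤ ((0 : ℕ) : ℝ) ∧ ClassGroup.mk0 I = c} := by
        refine ⟨fun I => ?_⟩
        have h1 : Ideal.absNorm (I.1 : Ideal (𝓞 K)) = 0 := by
          have := I.2.1
          exact_mod_cast Nat.le_zero.mp (by exact_mod_cast this)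
        rw [Ideal.absNorm_eq_zero_iff] at h1
        exact mem_nonZeroDivisors_iff_ne_zero.mp I.1.2 h1
      rw [Nat.card_of_isEmpty]
      simp only [Nat.cast_zero, mul_zero, sub_self, abs_zero]
      exact mul_nonneg (abs_nonneg _) (Real.rpow_nonneg le_rfl _)
    · have hn1 : (1 : ℝ) ≤ n := by exact_mod_cast hn
      refine (hC c n hn1).trans ?_
      exact mul_le_mul_of_nonneg_right (le_abs_self C) (Real.rpow_nonneg (by linarith) _)
  have hex : ∀ c : ClassGroup (𝓞 K), ∃ B : ℝ, ∀ s : ℝ, 1 < s → s ≤ 2 →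
      Summable (fun n : ℕ => cnt (nrm K c) (n + 1) * ((n : ℝ) + 1) ^ (-s)) ∧
      |∑' n : ℕ, cnt (nrm K c) (n + 1) * ((n : ℝ) + 1) ^ (-s) -
        κ * ∑' n : ℕ, ((n : ℝ) + 1) ^ (-s)| ≤ B :=
    fun c => Fermat.Agent.S14.SIan.abel_bound (cnt (nrm K c)) (cnt_nonneg _) κ |C| δ hδ0 hδ1
      (abs_nonneg C) (hab c)
  choose Bc hBc using hex
  refine ⟨κ, ∑ c, |Bc c|, hκ, Finset.sum_nonneg fun c _ => abs_nonneg _, fun c s hs hs2 => ?_⟩
  obtain ⟨h1, h2⟩ := hBc c s hs hs2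
  refine ⟨(summable_iff (nrm K c) s (finite_nrm_eq K c)).mpr h1, ?_⟩
  rw [tsum_eq (nrm K c) s (finite_nrm_eq K c) (nrm_ne_zero K c)]
  refine h2.trans ((le_abs_self _).trans ?_)
  exact Finset.single_le_sum (f := fun c => |Bc c|) (fun c _ => abs_nonneg _) (Finset.mem_univ c)

end Fermat.Agent.S14_helper57
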